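/-
S48, block BB/T (architect helper25).  TASK BB-T-2.  SKELETON (statements frozen).
Admissible functions composed with an integral matrix of positive determinant are admissible.

PROOF of `IsAdm.comp_gl`.  Let `A` be the integral matrix of `g`, `m = det A > 0` (positivity from `g.2`).
* `mdiff`: `GAL.Mult.mdiff_comp_smul`.
* `texp γ`: `A * γ` is integral of determinant `m`; `S24.B.exists_hermite`: `A γ = γ' (a b; 0 d)`, `a d = m`.  So
  `f (g • γ • τ) = (f ∘ γ') (triMat a b d • τ)`; take `s` from `hf.texp γ'` and apply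
  `Lib.EtaUnit.hasTExp_tri'` with `M := N`, `N := N'`, `e := N' a / (d N)` (`N a d ∣ N'`), `ξ := zetaK (d N) ^ b`
  (`iota_zetaK_zpow`, see the proof of `Lib.EtaUnit.exists_hasTExp_tri`).
* `fin`: `(1 k; 0 1) (a b; 0 d) = (a (b + k d); 0 d)`, so one can take `0 ≤ b < d` in the Hermite form
  (`exists_hermite_red`); the set is contained in the image of the finite set
  `(range fun γ' => f ∘ γ') × {(a, b, d) : a, d ∈ [1, m], b ∈ [0, m)}`.
-/
import Fermat.Agent.GAL.Mult.API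
import Fermat.Agent.Lib.EtaUnit.TExp.Tri

set_option autoImplicit false

namespace Fermat.Agent.S48.BB.T

open UpperHalfPlane ModularCurve
open Fermat.Agent.S24 Fermat.Agent.S24.B Fermat.Agent.GAL.Mult
open scoped MatrixGroups Real Manifold

/-- `g ∈ GL(2,ℝ)⁺` is an integral matrix, and `N * det g ∣ N'`. -/
def IsIntLevel (N N' : ℕ) (g : GL(2, ℝ)⁺) : Prop :=
  ∃ A : Matrix (Fin 2) (Fin 2) ℤ, (N : ℤ) * A.det ∣ (N' : ℤ) ∧
    ((g : GL (Fin 2) ℝ) : Matrix (Fin 2) (Fin 2) ℝ) = A.map (Int.cast : ℤ → ℝ)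

/-- Hermite normal form with reduced upper right entry. -/
theorem exists_hermite_red (α : Matrix (Fin 2) (Fin 2) ℤ) (hα : 0 < α.det) :
    ∃ (γ : SL(2, ℤ)) (a b d : ℤ), 0 < a ∧ 0 < d ∧ a * d = α.det ∧ 0 ≤ b ∧ b < d ∧
      α = γ.1 * !![a, b; 0, d] := by
  sorry

theorem IsAdm.comp_gl {N N' : ℕ} [NeZero N] [NeZero N'] {f : ℍ → ℂ} (hf : IsAdm N f)
    {g : GL(2, ℝ)⁺} (hg : IsIntLevel N N' g) : IsAdm N' (fun τ => f (g • τ)) := by
  sorry

end Fermat.Agent.S48.BB.T
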