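/-
S48, block BB/T (architect helper25).  TASK BB-T-6.  SKELETON (statements frozen).
Matrix lemmas for `H1 M 1 = ±Γ₁(M)`, `H1 M p = ±Γ₁(M) ∩ Γ₀(M p)`, `σ_p = sig M p`, `repT1 M p`.

PROOFS (`dd M γ` = lower right entry mod `M`, multiplicative on `Γ₀(M)`: `S48.A.dd_mul`; `H.mem_H1_one_iff`).
* `mem_normalizer_of_mem_Gamma0`: `dd (σ γ σ⁻¹) = dd σ * dd γ * dd σ⁻¹ = dd γ`.
* `mem_H1_iff`: `Γ₀(M p)`: `M p ∣ c ↔ M ∣ c ∧ p ∣ c` (coprime).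
* `repT1_trans`: `x = ∞`: `γ = δ = 1`.  `x = j`: as in `Lib.MulHecke.exists_coset_rep`: `s p + v M = 1`,
  `g = (1, j - v; M, M j + s p) ∈ Γ₁(M)`, `δ' = (p, -v; M, s) ∈ Γ₀(M)`, `dd δ' = s = p⁻¹`, `diag(p,1) g = δ' (1 j; 0 p)`; take `γ = g`,
  `δ = σ_p δ'` (`dd δ = p * s = 1`).
* `repT1_stab`: `σ_p diag(p,1) γ = δ σ_p diag(p,1)` iff `diag(p,1) γ diag(p,1)⁻¹ = (a, p b; c / p, d)` equals `σ_p⁻¹ δ σ_p`.
  If `p ∣ c` put `δ := σ_p (a, p b; c/p, d) σ_p⁻¹` (`M ∣ c / p` by coprimality; `dd δ = d`).  Conversely compare the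
  lower left entries (of integral matrices: cast injectivity) to get `p ∣ c`.
* `isIntLevel_repT1`: integral matrix `(sig M p).1 * !![p, 0; 0, 1]`, resp. `!![1, j; 0, p]`, determinant `p`;
  `ModularForm.val_heckeMatrix`, `ModularForm.val_heckeDiagMatrix`.
* `F1Q_le`: `sup_le_sup_left (full_degeneracy_le …)`.
-/
import Fermat.Agent.S48.BB.H.Defs
import Fermat.Agent.S48.BB.T.WIP.CompAdm

set_option autoImplicit false

namespace Fermat.Agent.S48.BB.T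

open ModularCurve CongruenceSubgroup Matrix.SpecialLinearGroup
open Fermat.Agent.S24 Fermat.Agent.S48.A Fermat.Agent.S48.BB.H
open scoped MatrixGroups OnePoint

variable (M : ℕ) [NeZero M]

theorem mem_normalizer_of_mem_Gamma0 {σ : SL(2, ℤ)} (hσ : σ ∈ Gamma0 M) :
    σ ∈ Subgroup.normalizer (H1 M 1 : Set SL(2, ℤ)) := by
  sorry

theorem mem_H1_one_of_dd_eq {σ τ : SL(2, ℤ)} (hσ : σ ∈ Gamma0 M) (hτ : τ ∈ Gamma0 M)
    (h : dd M σ = dd M τ) : σ * τ⁻¹ ∈ H1 M 1 := by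
  sorry

variable (p : ℕ) [NeZero p]

theorem mem_H1_iff (hpM : Nat.Coprime p M) (γ : SL(2, ℤ)) :
    γ ∈ H1 M p ↔ γ ∈ H1 M 1 ∧ (p : ℤ) ∣ γ 1 0 := by
  sorry

theorem repT1_trans (hpM : Nat.Coprime p M) (x : OnePoint (ZMod p)) :
    ∃ γ ∈ H1 M 1, ∃ δ ∈ H1 M 1, repT1 M p ∞ * mapGL ℝ γ = mapGL ℝ δ * repT1 M p x := by
  sorry

theorem repT1_stab (hpM : Nat.Coprime p M) (γ : SL(2, ℤ)) (hγ : γ ∈ H1 M 1) :
    γ ∈ H1 M p ↔ ∃ δ ∈ H1 M 1, repT1 M p ∞ * mapGL ℝ γ = mapGL ℝ δ * repT1 M p ∞ := by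
  sorry

theorem isIntLevel_repT1 (x : OnePoint (ZMod p)) :
    IsIntLevel (M * 1) (M * p) ⟨repT1 M p x, repT1_det_pos M p x⟩ := by
  sorry

theorem F1Q_le : F1Q M 1 ≤ F1Q M p := by
  sorry

end Fermat.Agent.S48.BB.T
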