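/-
S48, block BB/T (architect helper25).  TASK BB-T-7.  SKELETON (definitions and statements frozen).
The diamond action `(ℤ/M)ˣ → Aut (FB (F1Q M 1) / ℚ̄)`, `⟨d⟩ u = u ∘ σ_d`, `σ_d ∈ Γ₀(M)` with lower right entry `d`.

PROOFS.
* `Psi_diamondAut_of`: `conjAut_eq_of_mul_inv_mem` + `mem_H1_one_of_dd_eq` + `H.dd_sig`.
* `diamond.map_mul'`: `conjAut_mul`, `dd_mul`; `map_one'`: `conjAut hL (sig M 1) = conjAut hL 1`, `Psi_injective`.
* `real_diamond`: `real_conjAut`; `Finset.prod` over `Unit` (`Fintype.prod_unique` / `Finset.univ_unique`); `sl σ = ⟨mapGL ℝ σ, _⟩` is `rfl`/`Subtype.ext rfl`.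
* `dvd_ord_diamond`: `dvd_ord_map (β := (diamond hL d).toAlgHom) (jB hL) (transcendental_jB hL)`, instance `U.isFF1 hL`.
* `diamond_gal`: let `R := {x : FB F₀ | ∃ f : LaurentSeries ℚ, x = coeffEmb f}` (rational elements; they are fixed by
  `arithmeticRingAut`, `coe_arithmeticRingAut_apply`, `coeffMap` of `coeffEmb`).  STEP 1: `D (ofQ f) ∈ R` for all `f ∈ F1Q M 1`:
  the set of the `f ∈ ℚ((q))` with (`f ∈ F1Q M 1` and `D (ofQ f) ∈ R`) is closed under the field operations and contains `ℚ`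
  (`IntermediateField.adjoin_induction` after writing `F1Q M 1 = adjoin ℚ (range (uQ M) ∪ (modularFunctionFieldFull (M * 1)))`,
  `IntermediateField.adjoin_union`/`sup`), contains `uQ M a` by `hDR` (with `g := Psi hL (ofQ _)`, `realises_Psi_ofQ`, `Psi_eq_iff`), and
  `D` FIXES `ofQ f` for `f ∈ modularFunctionFieldFull (M * 1)`: `Psi hL (ofQ f) = PsiL (M * 1) ⟨coeffEmb f, _⟩` (`Psi_eq_iff`, `texpLL_PsiL`),
  which is fixed by `Γ₀(M * 1) = Γ₀(M)` (`smul_PsiL_of_mem_Gamma0`).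
  STEP 2: `U.FB_induction` on `u`: both sides are ring homomorphisms in `u`; `hQ`: STEP 1; `hc`: `arithmeticRingAut_algebraMap`, `AlgEquiv.commutes`.
-/
import Fermat.Agent.S48.BB.T.Lift
import Fermat.Agent.S48.BB.T.KumNorm
import Fermat.Agent.S48.BB.T.WIP.Mat

set_option autoImplicit false

noncomputable section

namespace Fermat.Agent.S48.BB.T

open ModularCurve AlgebraicCurve CongruenceSubgroup Matrix.SpecialLinearGroup
open Fermat.Agent.S24 Fermat.Agent.GAL.Mult Fermat.Agent.S48.A Fermat.Agent.S48.BB.H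
open Fermat.Agent.S48.BB.U
open scoped MatrixGroups

/-- INPUT from the blocks P/U1: the translates by `Γ₀(M)` of the generators `u_a = e_a E₄² / Δ` have rational
`q`-expansions.  (In fact `u_a ∘ γ = u_{a * a(γ)}`, `a(γ)` the upper left entry: see `DiamondGen`.) -/
def DiamondRat (M : ℕ) [NeZero M] : Prop :=
  ∀ γ ∈ Gamma0 M, ∀ (a : ZMod M) (g : LL (M * 1)), Realises (M * 1) g (uQ M a) →
    ∃ f : LaurentSeries ℚ, Realises (M * 1) (γ⁻¹ • g) f

/-- The precise form of `DiamondRat`. -/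
def DiamondGen (M : ℕ) [NeZero M] : Prop :=
  ∀ γ ∈ Gamma0 M, ∀ (a : ZMod M) (g : LL (M * 1)), Realises (M * 1) g (uQ M a) →
    Realises (M * 1) (γ⁻¹ • g) (uQ M (a * ((γ 0 0 : ℤ) : ZMod M)))

theorem DiamondGen.rat {M : ℕ} [NeZero M] (h : DiamondGen M) : DiamondRat M :=
  fun γ hγ a g hg => ⟨_, h γ hγ a g hg⟩

variable {M : ℕ} [NeZero M] (hL : IsLvl (F1Q M 1) (H1 M 1) (M * 1))

/-- `⟨d⟩ u = u ∘ σ_d`. -/
def diamondAut (d : ZMod M) : FB (F1Q M 1) ≃ₐ[Kbar] FB (F1Q M 1) :=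
  conjAut hL (sig M d) (mem_normalizer_of_mem_Gamma0 M (sig_mem M d))

theorem Psi_diamondAut (d : ZMod M) (u : FB (F1Q M 1)) :
    Psi hL (diamondAut hL d u) = (sig M d)⁻¹ • Psi hL u :=
  Psi_conjAut hL _ _ u

theorem Psi_diamondAut_of {d : ZMod M} (hd : IsUnit d) {γ : SL(2, ℤ)} (hγ : γ ∈ Gamma0 M)
    (hγd : dd M γ = d) (u : FB (F1Q M 1)) :
    Psi hL (diamondAut hL d u) = γ⁻¹ • Psi hL u := by
  sorry

/-- **The diamond action.** -/
def diamond : (ZMod M)ˣ →* (FB (F1Q M 1) ≃ₐ[Kbar] FB (F1Q M 1)) where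
  toFun d := diamondAut hL (d : ZMod M)
  map_one' := by
    sorry
  map_mul' d e := by
    sorry

theorem diamond_apply (d : (ZMod M)ˣ) (u : FB (F1Q M 1)) :
    diamond hL d u = diamondAut hL (d : ZMod M) u := rfl

theorem real_diamondAut (d : ZMod M) (u : FB (F1Q M 1)) :
    real hL (diamondAut hL d u) =
      ∏ i : Unit, (⟨repD M d i, repD_det_pos M d i⟩ : GL(2, ℝ)⁺)⁻¹ • real hL u := by
  sorry

theorem dvd_ord_diamondAut (d : ZMod M) (n : ℤ) (u : FB (F1Q M 1))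
    (hu : ∀ v : Place Kbar (FB (F1Q M 1)), n ∣ v.ord u) (v : Place Kbar (FB (F1Q M 1))) :
    n ∣ v.ord (diamondAut hL d u) := by
  sorry

/-- **The diamond operators are defined over `ℚ`.** -/
theorem diamondAut_gal (hDR : DiamondRat M) (d : ZMod M) (σ : Kbar ≃ₐ[ℚ] Kbar)
    (u : FB (F1Q M 1)) :
    diamondAut hL d (arithmeticRingAut (F1Q M 1) σ u) =
      arithmeticRingAut (F1Q M 1) σ (diamondAut hL d u) := by
  sorry

end Fermat.Agent.S48.BB.T

end
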