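/-
S48, block BB/T (architect helper25).  TASK BB-T-4.  SKELETON (statements frozen).
Change of the auxiliary level `N` in `IsLvl F₀ H N`  (item "change of N" of U0), and the inclusion
`alphaB : FB F₀ → FB F₀'` for `F₀ ≤ F₀'`.

PROOFS.  `IsLvl.levelUp`: `real`: take `levelUp h g₀`, `g₀` a realiser at level `N`; `texpLL_levelUp`, `qExpand_qExpand`
(+ `qExpand_congr`).  `inv`, `stab`: by `texpLL_injective` every realiser at level `N'` is `levelUp h g₀`; `smul_levelUp`;
`levelUp h` is injective (ring hom of fields).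
`Psi_levelUp`, `Psi_alphaB`: `U.Psi_eq_iff`.
-/
import Fermat.Agent.S48.BB.U.Basic
import Fermat.Agent.S48.BB.T.WIP.CompLL
import Fermat.Agent.GAL.KLInputs.Field

set_option autoImplicit false

noncomputable section

namespace Fermat.Agent.S48.BB.T

open ModularCurve
open Fermat.Agent.S24 Fermat.Agent.GAL.Mult Fermat.Agent.S48.BB.U
open scoped MatrixGroups

variable {F₀ F₀' : IntermediateField ℚ (LaurentSeries ℚ)} {H H' : Subgroup SL(2, ℤ)}
  {N N' : ℕ} [NeZero N] [NeZero N']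

theorem IsLvl.levelUp (hL : IsLvl F₀ H N) {k : ℕ} (h : N * k = N') : IsLvl F₀ H N' := by
  sorry

theorem Psi_levelUp (hL : IsLvl F₀ H N) (hL₁ : IsLvl F₀ H N') {k : ℕ} (h : N * k = N')
    (u : FB F₀) : Psi hL₁ u = levelUp h (Psi hL u) := by
  sorry

theorem real_levelUp (hL : IsLvl F₀ H N) (hL₁ : IsLvl F₀ H N') {k : ℕ} (h : N * k = N')
    (u : FB F₀) : real hL₁ u = real hL u := by
  rw [U.real_apply, Psi_levelUp hL hL₁ h, embL_levelUp, U.real_apply]

/-- The inclusion `FB F₀ → FB F₀'`. -/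
def alphaB (h : F₀ ≤ F₀') : FB F₀ →ₐ[Kbar] FB F₀' :=
  IntermediateField.inclusion (GAL.KLInputs.laurentBaseChange_mono h)

theorem coe_alphaB (h : F₀ ≤ F₀') (u : FB F₀) :
    ((alphaB h u : FB F₀') : LaurentSeries Kbar) = (u : LaurentSeries Kbar) :=
  IntermediateField.coe_inclusion _ u

theorem Psi_alphaB (hL₁ : IsLvl F₀ H N') (hL' : IsLvl F₀' H' N') (h : F₀ ≤ F₀') (u : FB F₀) :
    Psi hL' (alphaB h u) = Psi hL₁ u := by
  sorry

theorem alphaB_jB (hL₁ : IsLvl F₀ H N') (hL' : IsLvl F₀' H' N') (h : F₀ ≤ F₀') :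
    alphaB h (jB hL₁) = jB hL' :=
  Subtype.ext (by rw [coe_alphaB, coe_jB, coe_jB])

end Fermat.Agent.S48.BB.T

end
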