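/-
S48, block BB/T (architect helper25).  TASK BB-T-1.  SKELETON (statement frozen).
Abstract field theory: in a uniformisation, the norm from `F'` (group `H'`) to `F` (group `H ≥ H'`)
is the product over a system of representatives of `H / H'`.

PROOF.  `L` is an `F`-algebra through `Ψ`;  `τ i := (g i • ·) ∘ Ψ' : F' →ₐ[F] L` (it is `F`-linear because
`g i ∈ H` fixes `Ψ f = Ψ' (α f)`).  Injectivity of `i ↦ τ i`: if `τ i = τ j` then `(g i)⁻¹ * g j` fixes `Ψ' F'`, so it
is in `H'` (`hU'.mem_of_smul`), so `i = j`.  Cardinality: `H' ≤ H` (`hU.mem_of_smul` + `hU'.smul_of_mem` + `hα`),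
`ι ≃ H ⧸ H'.subgroupOf H`, so `card ι = H'.relIndex H`, `relIndex_mul_index`;
`CL.finrank_eq_index'` for `hU` and `hU'` (finite dimensionality: `CL.finiteDimensional_of_isUniformization`),
`Lib.MulHecke.finrank_adjoin_mul_finrank_along α x`.  Conclude by `Lib.MulHecke.algebraMap_norm_eq_prod`
(separable: char 0).
-/
import Fermat.Agent.S24.CL.Degree
import Fermat.Agent.Lib.MulHecke.Degree
import Fermat.Agent.Lib.MulHecke.NormProd
import Fermat.Agent.S37.HeckeInputs.Main

set_option autoImplicit false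

namespace Fermat.Agent.S48.BB.T

open AlgebraicCurve Fermat.Agent.S24 Fermat.Agent.S37.HeckeInputs

theorem Psi_normAlong_eq_prod {K F F' L G ι : Type*} [Field K] [CharZero K] [Field F] [Field F']
    [Field L] [Algebra K F] [Algebra K F'] [Algebra K L] [Group G] [MulSemiringAction G L]
    {x : F} {H H' : Subgroup G} [H.FiniteIndex] [H'.FiniteIndex]
    {Ψ : F →ₐ[K] L} {Ψ' : F' →ₐ[K] L} (α : F →ₐ[K] F')
    (hU : IsUniformization x H Ψ) (hU' : IsUniformization (α x) H' Ψ')
    (hfg : ∃ s : Finset F, IntermediateField.adjoin K (s : Set F) = ⊤)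
    (hfg' : ∃ s : Finset F', IntermediateField.adjoin K (s : Set F') = ⊤)
    (hα : ∀ f : F, Ψ' (α f) = Ψ f)
    [Fintype ι] (g : ι → G) (hg : ∀ i, g i ∈ H)
    (hcov : ∀ γ ∈ H, ∃ i, (g i)⁻¹ * γ ∈ H')
    (hdisj : ∀ i j, (g i)⁻¹ * g j ∈ H' → i = j) (y : F') :
    Ψ (normAlong α y) = ∏ i, g i • Ψ' y := by
  sorry

end Fermat.Agent.S48.BB.T
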