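/-
S48, block BB/T (architect helper25).  TASK BB-T-5.  SKELETON (definitions and statements frozen).
GENERIC multiplicative Hecke operator.  Data: `F₀ ≤ F₀'`, groups `H`, `H'`, levels `N`, `N'`, a Hecke family `α` for `H`
(integral matrices, `N * det ∣ N'`), a distinguished index `i₀` such that `H` acts transitively on the cosets
`H α i` and `H'` is the stabiliser of `H α i₀`.
  `betaB u := u ∘ α i₀ ∈ FB F₀'`,    `heckeB u := Norm_{FB F₀' / FB F₀} (betaB u)`.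
Results: `real (heckeB u) = ∏ i, real u ∘ α i`, and `heckeB` preserves the elements whose divisor is divisible by `n`.

PROOFS.
* `smul_compLL_of_mem`: `embL_injective`, `embL_smul`, `embL_compLL`; `sl γ • a⁻¹ • x = (a * sl γ⁻¹)⁻¹ • x`, `hstab` for `γ⁻¹`
  gives `a * sl γ⁻¹ = sl δ * a`, and `(sl δ)⁻¹ • real u = real u` (`U.smul_real_of_mem`).
* `Psi_heckeB`: `Psi_normAlong_eq_prod (alphaB hF) (U.isUniformization hL₁) (…hL')` (`alphaB_jB`, `Psi_alphaB`,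
  `U.exists_finset_adjoin_eq_top`, `U.finiteIndex`) with `g i := (γ i)⁻¹`, `γ i` chosen by `htrans`.
    cover: for `γ ∈ H` let `α i₀ γ⁻¹ = δ α i` (`hα.stable`); with `α i₀ γ_i = δ_i α i` get `α i₀ (γ_i γ)⁻¹ = δ δ_i⁻¹ α i₀`,
           so `(γ_i γ)⁻¹ ∈ H'` by `hstab`.
    disjoint: `γ_i γ_j⁻¹ ∈ H'` gives `α i₀ γ_i γ_j⁻¹ = δ α i₀`, so `δ_i α i = δ δ_j α j`, so `i = j` (`hα.disj`).
* `real_heckeB`: apply `embL N'` to `Psi_heckeB`; `sl (γ i)⁻¹ • (a i₀)⁻¹ • x = (a i₀ * sl (γ i))⁻¹ • x = (sl δ_i * a i)⁻¹ • x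
  = (a i)⁻¹ • (sl δ_i)⁻¹ • x = (a i)⁻¹ • x`.
* `dvd_ord_heckeB`: `dvd_ord_normAlong` with `x := jB hL`, `U.transcendental_jB`, instances `U.isFF1 hL`, `U.isFF1 hL'`.
-/
import Fermat.Agent.S48.BB.T.Lift
import Fermat.Agent.S48.BB.T.KumNorm
import Fermat.Agent.S48.BB.T.WIP.NormCoset
import Fermat.Agent.S48.BB.T.WIP.LevelUp
import Fermat.Agent.Lib.HeckeHom.Abstract

set_option autoImplicit false

noncomputable section

namespace Fermat.Agent.S48.BB.T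

open ModularCurve AlgebraicCurve Matrix.SpecialLinearGroup
open Fermat.Agent.S24 Fermat.Agent.GAL.Mult Fermat.Agent.S48.BB.U Fermat.Agent.Lib.HeckeHom
open Fermat.Agent.S37.HeckeInputs
open scoped MatrixGroups

/-- The data of a generic multiplicative Hecke operator. -/
structure HeckeData (F₀ F₀' : IntermediateField ℚ (LaurentSeries ℚ)) (H H' : Subgroup SL(2, ℤ))
    (N N' : ℕ) [NeZero N] [NeZero N'] (ι : Type) [Fintype ι] where
  hL : IsLvl F₀ H N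
  hL' : IsLvl F₀' H' N'
  hF : F₀ ≤ F₀'
  k : ℕ
  hk : N * k = N'
  α : ι → GL (Fin 2) ℝ
  hdet : ∀ i, 0 < (α i).det.val
  hα : IsHeckeFamily ((mapGL ℝ).comp H.subtype) α
  hint : ∀ i, IsIntLevel N N' ⟨α i, hdet i⟩
  i₀ : ι
  htrans : ∀ i, ∃ γ ∈ H, ∃ δ ∈ H, α i₀ * mapGL ℝ γ = mapGL ℝ δ * α i
  hstab : ∀ γ ∈ H, (γ ∈ H' ↔ ∃ δ ∈ H, α i₀ * mapGL ℝ γ = mapGL ℝ δ * α i₀)

namespace HeckeData

variable {F₀ F₀' : IntermediateField ℚ (LaurentSeries ℚ)} {H H' : Subgroup SL(2, ℤ)}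
  {N N' : ℕ} [NeZero N] [NeZero N'] {ι : Type} [Fintype ι] (X : HeckeData F₀ F₀' H H' N N' ι)

/-- the representatives in `GL(2,ℝ)⁺` -/
def a (i : ι) : GL(2, ℝ)⁺ := ⟨X.α i, X.hdet i⟩

include X in
/-- `F₀` at the level `N'` -/
theorem hL₁ : IsLvl F₀ H N' := IsLvl.levelUp X.hL X.hk

include X in
theorem le : H' ≤ H := by
  sorry

theorem smul_compLL_of_mem (u : FB F₀) (γ : SL(2, ℤ)) (hγ : γ ∈ H') :
    γ • compLL (X.a X.i₀) (X.hint X.i₀) (Psi X.hL u) =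
      compLL (X.a X.i₀) (X.hint X.i₀) (Psi X.hL u) := by
  sorry

/-- `u ↦ u ∘ α i₀`. -/
def betaB : FB F₀ →ₐ[Kbar] FB F₀' :=
  liftPsi X.hL' ((compLL (X.a X.i₀) (X.hint X.i₀)).comp (Psi X.hL))
    (fun u γ hγ => X.smul_compLL_of_mem u γ hγ)

theorem Psi_betaB (u : FB F₀) :
    Psi X.hL' (X.betaB u) = compLL (X.a X.i₀) (X.hint X.i₀) (Psi X.hL u) :=
  Psi_liftPsi X.hL' _ _ u

/-- **The multiplicative Hecke operator** `u ↦ Norm (u ∘ α i₀)`. -/
def heckeB : FB F₀ →* FB F₀ :=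
  (normAlong (alphaB X.hF)).comp (X.betaB : FB F₀ →* FB F₀')

theorem heckeB_apply (u : FB F₀) : X.heckeB u = normAlong (alphaB X.hF) (X.betaB u) := rfl

/-- the product formula in `LL N'` -/
theorem Psi_heckeB (u : FB F₀) :
    Psi X.hL₁ (X.heckeB u) = ∏ i, compLL (X.a i) (X.hint i) (Psi X.hL u) := by
  sorry

/-- **The product formula** in the field of meromorphic functions. -/
theorem real_heckeB (u : FB F₀) :
    real X.hL (X.heckeB u) = ∏ i, (⟨X.α i, X.hdet i⟩ : GL(2, ℝ)⁺)⁻¹ • real X.hL u := by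
  sorry

/-- `heckeB` preserves the elements whose divisor is divisible by `n`. -/
theorem dvd_ord_heckeB (n : ℤ) (u : FB F₀) (hu : ∀ v : Place Kbar (FB F₀), n ∣ v.ord u)
    (v : Place Kbar (FB F₀)) : n ∣ v.ord (X.heckeB u) := by
  sorry

end HeckeData

end Fermat.Agent.S48.BB.T

end
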