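/-
S48, block BB/T (architect helper25).  TASK BB-T-9.  SKELETON (definitions and statements frozen).
**DELIVERABLE OF BLOCK T**: the multiplicative Hecke operators `heckeT` on `FB (F1Q M 1)`:
  * `real_heckeT`    : `real (T_p u) = ∏ x, real u ∘ repT1 M p x`                      (interface with M);
  * `dvd_ord_heckeT` : `T_p` preserves the elements whose divisor is divisible by `n`  (interface with E);
  * `qExpand_heckeT` : `(T_p u)(q^p) = (⟨p⟩ u)(q^(p²)) ∏_{b<p} u(ζ_p^b q)`               (interface with E);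
and (file `Diamond.lean`) `diamond`, `diamondAut`, `real_diamondAut`, `dvd_ord_diamondAut`, `diamondAut_gal`.
INPUTS: `LvlStatement` (P + U1), `DiamondRat M` (P + U1), `IsHeckeFamily (Fermat.Agent.S48.BB.M.inclH (H1 M 1)) (repT1 M p)` (H).

PROOF of `qExpand_heckeT`.  Let `X := heckeData …`, `N = M * 1`, `N' = M * p`.  Apply `texpLL N'` to `X.Psi_heckeB u`:
  `qExpand N' (T u) = ∏ x, texpLL N' (compLL (X.a x) _ (Psi hL u))`   (`U.texpLL_Psi`, `map_prod`);
  `Fintype.prod_option` (`GAL.Mult.HeckeBridge.prod_onePoint`, `prod_zmod_val`);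
  `x = j`: `texpLL_compLL_upper` (`H.repT1_coe`);   `x = ∞`: `compLL_repT1_infty` then `texpLL_compLL_diag`.
  Finally `qExpand N' = qExpand N ∘ qExpand p` (`qExpand_qExpand`, `qExpand_congr`), `map_mul`, `map_prod`, `qExpand_injective N`.
PROOF of `compLL_repT1_infty`: `smul_compLL` with `γ = 1`, `δ = sig M p`, `g' = diag` (`H.repT1_infty`), `Psi_diamondAut`.
-/
import Fermat.Agent.S48.BB.T.WIP.HeckeGen
import Fermat.Agent.S48.BB.T.WIP.Diamond
import Fermat.Agent.S48.BB.T.WIP.QExp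

set_option autoImplicit false

noncomputable section

namespace Fermat.Agent.S48.BB.T

open ModularCurve AlgebraicCurve CongruenceSubgroup Matrix.SpecialLinearGroup
open Fermat.Agent.S24 Fermat.Agent.S24.B Fermat.Agent.GAL.Mult Fermat.Agent.S48.A
open Fermat.Agent.S48.BB.H Fermat.Agent.Lib.HeckeHom
open scoped MatrixGroups OnePoint

variable (M p : ℕ) [NeZero M] [NeZero p]

/-- The Hecke data of `T_p` on `±Γ₁(M)`. -/
def heckeData (hL : IsLvl (F1Q M 1) (H1 M 1) (M * 1)) (hL' : IsLvl (F1Q M p) (H1 M p) (M * p))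
    (hpM : Nat.Coprime p M) (hfam : IsHeckeFamily (Fermat.Agent.S48.BB.M.inclH (H1 M 1)) (repT1 M p)) :
    HeckeData (F1Q M 1) (F1Q M p) (H1 M 1) (H1 M p) (M * 1) (M * p) (OnePoint (ZMod p)) where
  hL := hL
  hL' := hL'
  hF := F1Q_le M p
  k := p
  hk := by rw [mul_one]
  α := repT1 M p
  hdet := repT1_det_pos M p
  hα := hfam
  hint := isIntLevel_repT1 M p
  i₀ := ∞
  htrans := repT1_trans M p hpM
  hstab := repT1_stab M p hpM

variable {M p}
variable (hL : IsLvl (F1Q M 1) (H1 M 1) (M * 1)) (hL' : IsLvl (F1Q M p) (H1 M p) (M * p))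
  (hpM : Nat.Coprime p M) (hfam : IsHeckeFamily (Fermat.Agent.S48.BB.M.inclH (H1 M 1)) (repT1 M p))

/-- **The multiplicative Hecke operator `T_p` on the function field of `±Γ₁(M)`.** -/
def heckeT : FB (F1Q M 1) →* FB (F1Q M 1) := (heckeData M p hL hL' hpM hfam).heckeB

theorem real_heckeT (u : FB (F1Q M 1)) :
    U.real hL (heckeT hL hL' hpM hfam u) =
      ∏ x : OnePoint (ZMod p),
        (⟨repT1 M p x, repT1_det_pos M p x⟩ : GL(2, ℝ)⁺)⁻¹ • U.real hL u :=
  (heckeData M p hL hL' hpM hfam).real_heckeB u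

theorem dvd_ord_heckeT (n : ℤ) (u : FB (F1Q M 1))
    (hu : ∀ v : Place Kbar (FB (F1Q M 1)), n ∣ v.ord u) (v : Place Kbar (FB (F1Q M 1))) :
    n ∣ v.ord (heckeT hL hL' hpM hfam u) :=
  (heckeData M p hL hL' hpM hfam).dvd_ord_heckeB n u hu v

theorem isIntLevel_diag : IsIntLevel (M * 1) (M * p)
    ⟨ModularForm.heckeDiagMatrix p, by simpa using ModularForm.det_heckeDiagMatrix_pos p⟩ := by
  sorry

theorem compLL_repT1_infty (u : FB (F1Q M 1)) :
    compLL ⟨repT1 M p ∞, repT1_det_pos M p ∞⟩ (isIntLevel_repT1 M p ∞) (U.Psi hL u) =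
      compLL _ (isIntLevel_diag (M := M) (p := p))
        (U.Psi hL (diamondAut hL (p : ZMod M) u)) := by
  sorry

/-- **The `q`-expansion of `T_p u`**: `(T_p u)(q^p) = (⟨p⟩ u)(q^(p²)) ∏_{b<p} u(ζ_p^b q)`. -/
theorem qExpand_heckeT (u : FB (F1Q M 1)) :
    qExpand Kbar p ((heckeT hL hL' hpM hfam u : FB (F1Q M 1)) : LaurentSeries Kbar) =
      qExpand Kbar (p * p) ((diamondAut hL (p : ZMod M) u : FB (F1Q M 1)) : LaurentSeries Kbar) *
        ∏ b ∈ Finset.range p, twist (zetaK p ^ b) (u : LaurentSeries Kbar) := by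
  sorry

end Fermat.Agent.S48.BB.T

end
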