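/-
S48, block BB/T (architect helper25).  TASK BB-T-8.  SKELETON (statements frozen).
The `t`-expansions of `u ∘ (1 j; 0 p)` and of `u ∘ (p 0; 0 1)` for `u ∈ FB F₀`  (`t = q^(1/N')`, `N' = N p`).

PROOFS.  `GAL.Mult.HeckeBridge.heckeMatrix_eq_triMat`, `heckeDiagMatrix_eq_triMat`, then `texpLL_compLL_tri`, `U.texpLL_Psi`.
* upper: `(a, b, d) = (1, j, p)`, `e = 1` (`1 * (p * N) = N' * 1`), `ξ = zetaK (p * N) ^ j` (`iota_zetaK_zpow`/`iota_zetaK`);
  `qExpand_one_apply`; `twist ξ (qExpand N u) = qExpand N (twist (ξ ^ N) u)` (`Lib.MulHecke.tw_qExpand`, `twist_eq_tw` is `rfl`);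
  `(zetaK (p * N) ^ j) ^ N = zetaK p ^ j` (apply `iota` (injective) and `Units.ext`; `Complex.exp_nat_mul`).
* diag: `(a, b, d) = (p, 0, 1)`, `e = p * p` (`(p * p) * (1 * N) = N' * p`), `ξ = 1`, `twist_one`; `qExpand_qExpand`, `qExpand_congr`.
-/
import Fermat.Agent.S48.BB.U.Basic
import Fermat.Agent.S48.BB.T.WIP.CompLL
import Fermat.Agent.GAL.Mult.HeckeBridge
import Fermat.Agent.Lib.MulHecke.Basic

set_option autoImplicit false

namespace Fermat.Agent.S48.BB.T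

open ModularCurve
open Fermat.Agent.S24 Fermat.Agent.S24.B Fermat.Agent.GAL.Mult
open scoped MatrixGroups

variable {F₀ : IntermediateField ℚ (LaurentSeries ℚ)} {H : Subgroup SL(2, ℤ)}
  {N N' : ℕ} [NeZero N] [NeZero N'] {p : ℕ} [NeZero p]

theorem texpLL_compLL_upper (hL : IsLvl F₀ H N) (hN : N * p = N') {g : GL(2, ℝ)⁺}
    (hg : IsIntLevel N N' g) (j : ℕ) (hgj : (g : GL (Fin 2) ℝ) = ModularForm.heckeMatrix p j)
    (u : FB F₀) :
    texpLL N' (compLL g hg (U.Psi hL u)) =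
      qExpand Kbar N (twist (zetaK p ^ j) (u : LaurentSeries Kbar)) := by
  sorry

theorem texpLL_compLL_diag (hL : IsLvl F₀ H N) (hN : N * p = N') {g : GL(2, ℝ)⁺}
    (hg : IsIntLevel N N' g) (hgd : (g : GL (Fin 2) ℝ) = ModularForm.heckeDiagMatrix p)
    (u : FB F₀) :
    texpLL N' (compLL g hg (U.Psi hL u)) =
      qExpand Kbar N (qExpand Kbar (p * p) (u : LaurentSeries Kbar)) := by
  sorry

end Fermat.Agent.S48.BB.T
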